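import Mathlib
import Fermat.Agent.S49.DSLift

/-!
# P-S41 (B7): Deligne–Serre lifting inside the span of a lattice

A variant of `Fermat.Agent.S49.DSLift.exists_eigenvector_lift` which does not require the lattice
`L` to span the ambient space: the eigenvector is found in `span ℂ L`, and the operators only have
to commute on `L`.
-/

set_option autoImplicit false
set_option linter.style.haveILetI false

namespace Fermat.Agent.S41.Final

open Fermat.Agent.S49.DSLift

variable {V : Type*} [AddCommGroup V] [Module ℂ V]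

theorem exists_eigenvector_lift_in_span
    (L : Submodule ℤ V) (hLfg : L.FG)
    {ι : Type*} (T : ι → Module.End ℂ V)
    (hcomm : ∀ i j, ∀ x ∈ L, T i (T j x) = T j (T i x))
    (hTL : ∀ i, ∀ x ∈ L, T i x ∈ L)
    (p : ℕ) (hp : p.Prime)
    (g : V) (hgL : g ∈ L) (hg : ¬ ∃ h ∈ L, g = (p : ℤ) • h)
    (a : ι → ℤ) (ha : ∀ i, ∃ h ∈ L, T i g - a i • g = (p : ℤ) • h) :
    ∃ (f : V) (𝔪 : Ideal (integralClosure ℤ ℂ)) (c : ι → integralClosure ℤ ℂ),
      f ∈ Submodule.span ℂ (L : Set V) ∧ f ≠ 0 ∧ 𝔪.IsMaximal ∧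
      ((p : ℕ) : integralClosure ℤ ℂ) ∈ 𝔪 ∧
      ∀ i, T i f = (c i : ℂ) • f ∧ c i - (a i : integralClosure ℤ ℂ) ∈ 𝔪 := by
  classical
  let W : Submodule ℂ V := Submodule.span ℂ (L : Set V)
  have hLW : ∀ x ∈ L, x ∈ W := fun x hx => Submodule.subset_span hx
  have hTW : ∀ i, ∀ w ∈ W, T i w ∈ W := by
    intro i w hw
    induction hw using Submodule.span_induction with
    | mem x hx => exact hLW _ (hTL i x hx)
    | zero => rw [map_zero]; exact W.zero_mem
    | add x y _ _ hx hy => rw [map_add]; exact W.add_mem hx hy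
    | smul c x _ hx => rw [map_smul]; exact W.smul_mem c hx
  let T' : ι → Module.End ℂ W := fun i => (T i).restrict (hTW i)
  have hT'coe : ∀ i (w : W), ((T' i w : W) : V) = T i w := fun _ _ => rfl
  -- the lattice inside `W`
  let incl : L →ₗ[ℤ] W :=
    { toFun := fun x => ⟨x, hLW x x.2⟩
      map_add' := fun _ _ => rfl
      map_smul' := fun _ _ => rfl }
  let L' : Submodule ℤ W := LinearMap.range incl
  have hL'mem : ∀ w : W, w ∈ L' ↔ (w : V) ∈ L := by
    intro w
    constructor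
    · rintro ⟨x, rfl⟩
      exact x.2
    · intro hw
      exact ⟨⟨w, hw⟩, rfl⟩
  have hL'fg : L'.FG := by
    haveI : Module.Finite ℤ L := Module.Finite.iff_fg.2 hLfg
    have : (⊤ : Submodule ℤ L).FG := Module.Finite.fg_top
    have h2 : L' = Submodule.map incl ⊤ := (Submodule.map_top incl).symm
    rw [h2]
    exact this.map incl
  have hL'span : Submodule.span ℂ (L' : Set W) = ⊤ := by
    rw [eq_top_iff]
    rintro ⟨w, hw⟩ -
    induction hw using Submodule.span_induction with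
    | mem x hx => exact Submodule.subset_span ((hL'mem ⟨x, hLW x hx⟩).2 hx)
    | zero => exact (Submodule.span ℂ (L' : Set W)).zero_mem
    | add x y hx hy ihx ihy =>
      have : (⟨x + y, W.add_mem hx hy⟩ : W) = ⟨x, hx⟩ + ⟨y, hy⟩ := rfl
      rw [this]
      exact Submodule.add_mem _ ihx ihy
    | smul c x hx ihx =>
      have : (⟨c • x, W.smul_mem c hx⟩ : W) = c • ⟨x, hx⟩ := rfl
      rw [this]
      exact Submodule.smul_mem _ c ihx
  have hcomm' : ∀ i j, Commute (T' i) (T' j) := by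
    intro i j
    show T' i * T' j = T' j * T' i
    apply LinearMap.ext_on_range (v := fun x : L' => (x : W))
    · rw [Subtype.range_coe_subtype]
      exact hL'span
    · rintro ⟨w, hw⟩
      apply Subtype.ext
      show T i (T j (w : V)) = T j (T i (w : V))
      exact hcomm i j _ ((hL'mem w).1 hw)
  have hT'L : ∀ i, ∀ w ∈ L', T' i w ∈ L' := by
    intro i w hw
    rw [hL'mem] at hw ⊢
    exact hTL i _ hw
  have hg' : ¬ ∃ h ∈ L', (⟨g, hLW g hgL⟩ : W) = (p : ℤ) • h := by
    rintro ⟨h, hh, e⟩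
    exact hg ⟨h, (hL'mem h).1 hh, congrArg Subtype.val e⟩
  have ha' : ∀ i, ∃ h ∈ L', T' i ⟨g, hLW g hgL⟩ - a i • (⟨g, hLW g hgL⟩ : W) = (p : ℤ) • h := by
    intro i
    obtain ⟨h, hh, e⟩ := ha i
    exact ⟨⟨h, hLW h hh⟩, (hL'mem _).2 hh, Subtype.ext e⟩
  obtain ⟨f, 𝔪, c, hf0, h𝔪, hp𝔪, hc⟩ :=
    exists_eigenvector_lift L' hL'fg hL'span T' hcomm' hT'L p hp ⟨g, hLW g hgL⟩
      ((hL'mem _).2 hgL) hg' a ha'
  refine ⟨f, 𝔪, c, f.2, fun h => hf0 (Subtype.ext h), h𝔪, hp𝔪, fun i => ⟨?_, (hc i).2⟩⟩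
  have := congrArg Subtype.val (hc i).1
  exact this

end Fermat.Agent.S41.Final
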