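/-
P-S41 (helper39): lattice facts for `H(M; A) := homPE ℤ (Γ₀(M)) A`, used by the final assembly.

* `coeffMap f G : (Additive G →+ A) →+ (Additive G →+ B)`, change of coefficients; it preserves
  `homPE` (`comp_mem_homPE`);
* `finite_homPE_int`: `H(M; ℤ)` is a finitely generated `ℤ`-module;
* `exists_lift_zmod`: `H(M; ℤ) → H(M; ℤ/p)` is surjective (`PEQuot (Γ₀(M))` is free);
* `exists_eq_smul_of_cast_comp_eq_zero`: the kernel of reduction mod `p` on `homPE ℤ Γ ℤ` is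
  `p · homPE ℤ Γ ℤ`;
* `span_cast_homPE`: `H(M; ℤ)` spans `homPE ℂ (Γ₀(M)) ℂ` over `ℂ`;
* `cast_comp_injective`, `eq_zero_of_smul_eq_zero`: `Hom(G, ℤ) → Hom(G, ℂ)` is injective and
  `Hom(G, ℤ)` is torsion-free.
-/
import Mathlib
import Fermat.Agent.Gateway.A2.Uncond

set_option autoImplicit false
set_option linter.style.haveILetI false

namespace Fermat.Agent.S41.Final

open Fermat.Agent.Gateway.A2 Fermat.Agent.Gateway.A2.Count CongruenceSubgroup
open scoped MatrixGroups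

/-! ### (0) change of coefficients -/

section Coeff

variable {A B : Type*} [AddCommGroup A] [AddCommGroup B]

/-- Change of coefficients `Hom(G, A) → Hom(G, B)` along `f : A →+ B`. -/
def coeffMap (f : A →+ B) (G : Type*) [Group G] : (Additive G →+ A) →+ (Additive G →+ B) :=
  AddMonoidHom.compHom f

@[simp] theorem coeffMap_apply (f : A →+ B) (G : Type*) [Group G] (φ : Additive G →+ A) :
    coeffMap f G φ = f.comp φ := rfl

theorem comp_mem_homPE (Γ : Subgroup SL(2, ℤ)) (f : A →+ B) {φ : Additive Γ →+ A}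
    (h : φ ∈ homPE ℤ Γ A) : f.comp φ ∈ homPE ℤ Γ B := by
  intro γ hγ
  show f (φ (Additive.ofMul γ)) = 0
  rw [h γ hγ, map_zero]

/-- Membership in `homPE` does not depend on the ring of scalars. -/
theorem mem_homPE_iff_int (R : Type*) [Semiring R] [Module R B] (Γ : Subgroup SL(2, ℤ))
    (φ : Additive Γ →+ B) : φ ∈ homPE R Γ B ↔ φ ∈ homPE ℤ Γ B := Iff.rfl

end Coeff

/-! ### (e) injectivity of `Hom(G, ℤ) → Hom(G, ℂ)` and torsion-freeness -/

section Inj

theorem cast_comp_injective (G : Type*) [Group G] :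
    Function.Injective (fun φ : Additive G →+ ℤ => (Int.castAddHom ℂ).comp φ) := by
  intro φ ψ h
  refine AddMonoidHom.ext fun x => ?_
  have h1 := DFunLike.congr_fun h x
  exact Int.cast_injective (α := ℂ) h1

theorem eq_zero_of_smul_eq_zero {G : Type*} [Group G] {p : ℤ} (hp : p ≠ 0)
    {φ : Additive G →+ ℤ} (h : p • φ = 0) : φ = 0 := by
  refine AddMonoidHom.ext fun x => ?_
  have h1 : p • φ x = 0 := DFunLike.congr_fun h x
  rw [smul_eq_mul] at h1
  exact (mul_eq_zero.mp h1).resolve_left hp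

end Inj

/-! ### (c) the kernel of reduction modulo `p` -/

section Kernel

theorem exists_eq_smul_of_cast_comp_eq_zero (Γ : Subgroup SL(2, ℤ)) (p : ℕ) [NeZero p]
    (φ : Additive Γ →+ ℤ) (hφ : φ ∈ homPE ℤ Γ ℤ)
    (h : (Int.castAddHom (ZMod p)).comp φ = 0) :
    ∃ φ' ∈ homPE ℤ Γ ℤ, φ = (p : ℤ) • φ' := by
  have hdvd : ∀ x : Additive Γ, (p : ℤ) ∣ φ x := fun x =>
    (ZMod.intCast_zmod_eq_zero_iff_dvd _ _).1 (DFunLike.congr_fun h x)
  let φ' : Additive Γ →+ ℤ :=
    { toFun := fun x => φ x / (p : ℤ)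
      map_zero' := by simp
      map_add' := fun a b => by
        show φ (a + b) / (p : ℤ) = φ a / (p : ℤ) + φ b / (p : ℤ)
        rw [map_add]
        exact Int.add_ediv_of_dvd_left (hdvd a) }
  refine ⟨φ', ?_, ?_⟩
  · intro γ hγ
    show φ (Additive.ofMul γ) / (p : ℤ) = 0
    rw [hφ γ hγ, Int.zero_ediv]
  · refine AddMonoidHom.ext fun x => ?_
    show φ x = (p : ℤ) • (φ x / (p : ℤ))
    rw [smul_eq_mul, Int.mul_ediv_cancel' (hdvd x)]

end Kernel

/-! ### (a), (b), (d): consequences of the freeness of `PEQuot (Γ₀(M))` -/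

section Free

variable (M : ℕ) [NeZero M]

/-- `Additive (PEQuot (Γ₀(M)))` is a free `ℤ`-module. -/
theorem free_PEQuot : Module.Free ℤ (Additive (PEQuot (Gamma0 M))) := by
  obtain ⟨g, -, ⟨e⟩, -⟩ := a2_Gamma0 M
  exact Module.Free.of_equiv e.symm.toIntLinearEquiv

/-- `Additive (PEQuot (Γ₀(M)))` is a finitely generated `ℤ`-module. -/
theorem finite_PEQuot : Module.Finite ℤ (Additive (PEQuot (Gamma0 M))) := by
  obtain ⟨g, -, ⟨e⟩, -⟩ := a2_Gamma0 M
  exact Module.Finite.equiv e.symm.toIntLinearEquiv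

/-- **(a)** `H(M; ℤ)` is a finitely generated `ℤ`-module. -/
theorem finite_homPE_int : Module.Finite ℤ (homPE ℤ (Gamma0 M) ℤ) := by
  haveI := free_PEQuot M
  haveI := finite_PEQuot M
  exact Module.Finite.equiv (homPEEquiv (Gamma0 M) ℤ ℤ)

/-- **(b)** Every class in `H(M; ℤ/p)` lifts to `H(M; ℤ)`. -/
theorem exists_lift_zmod (p : ℕ) [NeZero p] (ψ : Additive (Gamma0 M) →+ ZMod p)
    (hψ : ψ ∈ homPE ℤ (Gamma0 M) (ZMod p)) :
    ∃ φ ∈ homPE ℤ (Gamma0 M) ℤ, (Int.castAddHom (ZMod p)).comp φ = ψ := by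
  haveI := free_PEQuot M
  let ψ' : Additive (PEQuot (Gamma0 M)) →+ ZMod p := peLift (Gamma0 M) ℤ (ZMod p) ψ hψ
  have hsurj : Function.Surjective ((Int.castAddHom (ZMod p)).toIntLinearMap) :=
    ZMod.intCast_surjective
  obtain ⟨h, hh⟩ := Module.projective_lifting_property
    ((Int.castAddHom (ZMod p)).toIntLinearMap) ψ'.toIntLinearMap hsurj
  refine ⟨peRes (Gamma0 M) ℤ ℤ h.toAddMonoidHom, ?_, ?_⟩
  · rw [← range_peRes]
    exact ⟨h.toAddMonoidHom, rfl⟩
  · refine AddMonoidHom.ext fun γ => ?_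
    have h1 := LinearMap.congr_fun hh (MonoidHom.toAdditive (peProj (Gamma0 M)) γ)
    have h2 : ψ = peRes (Gamma0 M) ℤ (ZMod p) ψ' := (peRes_peLift (Gamma0 M) ℤ (ZMod p) ψ hψ).symm
    rw [h2]
    exact h1

/-- **(d)** The integral classes span `homPE ℂ (Γ₀(M)) ℂ` over `ℂ`. -/
theorem span_cast_homPE :
    Submodule.span ℂ ((fun φ : Additive (Gamma0 M) →+ ℤ => (Int.castAddHom ℂ).comp φ) ''
      (homPE ℤ (Gamma0 M) ℤ : Set (Additive (Gamma0 M) →+ ℤ))) = homPE ℂ (Gamma0 M) ℂ := by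
  apply le_antisymm
  · rw [Submodule.span_le]
    rintro _ ⟨φ, hφ, rfl⟩
    exact comp_mem_homPE (Gamma0 M) (Int.castAddHom ℂ) hφ
  · intro ψ hψ
    obtain ⟨g, -, ⟨e⟩, -⟩ := a2_Gamma0 M
    -- the lift of `ψ` to the universal quotient
    let ψ' : Additive (PEQuot (Gamma0 M)) →+ ℂ := peLift (Gamma0 M) ℂ ℂ ψ hψ
    have hψ' : ψ = peRes (Gamma0 M) ℂ ℂ ψ' := (peRes_peLift (Gamma0 M) ℂ ℂ ψ hψ).symm
    -- the basis and the dual basis
    let b : Fin (2 * g) → Additive (PEQuot (Gamma0 M)) := fun i => e.symm (Finsupp.single i 1)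
    let c : Fin (2 * g) → (Additive (PEQuot (Gamma0 M)) →+ ℤ) := fun i =>
      (Finsupp.applyAddHom i).comp e.toAddMonoidHom
    have hexp : ∀ x : Additive (PEQuot (Gamma0 M)), x = ∑ i, (c i x) • b i := by
      intro x
      apply e.injective
      rw [map_sum]
      simp only [b, c, map_zsmul, AddEquiv.apply_symm_apply]
      have : e x = ∑ i, (e x) i • Finsupp.single i (1 : ℤ) := by
        ext j
        rw [Finsupp.coe_finsetSum, Finset.sum_apply]
        simp [Finsupp.single_apply]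
      exact this
    have hsum : ψ = ∑ i, ψ' (b i) •
        (Int.castAddHom ℂ).comp (peRes (Gamma0 M) ℤ ℤ (c i)) := by
      rw [hψ']
      refine AddMonoidHom.ext fun γ' => ?_
      obtain ⟨γ, rfl⟩ : ∃ γ : Gamma0 M, Additive.ofMul γ = γ' := ⟨Additive.toMul γ', rfl⟩
      rw [peRes_apply, AddMonoidHom.finsetSum_apply]
      conv_lhs => rw [hexp (Additive.ofMul (peProj (Gamma0 M) γ))]
      rw [map_sum]
      refine Finset.sum_congr rfl fun i _ => ?_
      rw [map_zsmul]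
      show _ = ψ' (b i) • ((c i (Additive.ofMul (peProj (Gamma0 M) γ)) : ℤ) : ℂ)
      rw [zsmul_eq_mul, smul_eq_mul, mul_comm]
    rw [hsum]
    refine Submodule.sum_mem _ fun i _ => Submodule.smul_mem _ _ (Submodule.subset_span ?_)
    refine ⟨peRes (Gamma0 M) ℤ ℤ (c i), ?_, rfl⟩
    rw [SetLike.mem_coe, ← range_peRes]
    exact ⟨c i, rfl⟩

end Free

end Fermat.Agent.S41.Final
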