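import Mathlib
import Fermat.Agent.S21
import Fermat.Agent.Gateway.A2.Final
import Fermat.Agent.Gateway.Hecke.CohPeriod
import Fermat.Prelude.Thm_CuspForm_heckeTLin_comm

/-!
# P-S41 (B7): the cohomological Hecke operators commute on `H¹_par(Γ₀(M), ℂ)`

Transport of `CuspForm.heckeTLin_comm` through the Eichler–Shimura isomorphism (S21 + HK4P).
-/

set_option autoImplicit false

namespace Fermat.Agent.S41.Final

open CongruenceSubgroup ModularCurve ModularCurve.Period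
open Fermat.Agent.Gateway.A2 Fermat.Agent.Gateway.HeckeCoh Fermat.Agent.Gateway.HeckeCohPeriod
open scoped MatrixGroups

/-- Every class of `H¹_par(Γ₀(M), ℂ)` is a period class. -/
theorem exists_periodHomPair_eq (M : ℕ) [NeZero M] (x : Additive (Gamma0 M) →+ ℂ)
    (hx : x ∈ homPE ℂ (Gamma0 M) ℂ) :
    ∃ fg : CuspForm (Gamma0 M) 2 × CuspForm (Gamma0 M) 2, periodHomPair M fg = x := by
  rw [Fermat.Agent.Gateway.A2.Count.homPE_complex_eq, ← (Fermat.Agent.S21.result M).2] at hx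
  exact hx

theorem heckeHom_comm_of_mem_homPE (M : ℕ) [NeZero M] (l l' : ℕ) [Fact l.Prime] [Fact l'.Prime]
    (hl : ¬ l ∣ M) (hl' : ¬ l' ∣ M) (x : Additive (Gamma0 M) →+ ℂ)
    (hx : x ∈ homPE ℂ (Gamma0 M) ℂ) :
    heckeHom M l hl ℂ (heckeHom M l' hl' ℂ x) = heckeHom M l' hl' ℂ (heckeHom M l hl ℂ x) := by
  obtain ⟨⟨f, g⟩, rfl⟩ := exists_periodHomPair_eq M x hx
  have hlp : l.Prime := Fact.out
  have hlp' : l'.Prime := Fact.out
  rw [← periodHomPair_heckeTLin M l' hl' hlp' f g, ← periodHomPair_heckeTLin M l hl hlp f g,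
    ← periodHomPair_heckeTLin M l hl hlp, ← periodHomPair_heckeTLin M l' hl' hlp']
  have h1 := (CuspForm.heckeTLin_comm (N := M) 2 hlp hl hlp' hl').eq
  have h2 : ∀ f : CuspForm (Gamma0 M) 2,
      CuspForm.heckeTLin 2 hlp hl (CuspForm.heckeTLin 2 hlp' hl' f)
        = CuspForm.heckeTLin 2 hlp' hl' (CuspForm.heckeTLin 2 hlp hl f) := fun f =>
    LinearMap.congr_fun h1 f
  rw [h2 f, h2 g]

end Fermat.Agent.S41.Final
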