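import Mathlib

/-!
# P-S41 (B7): reduction of a characteristic zero eigensystem modulo `p`

Abstract form (`exists_mod_p_eigenvector_of_annihilator_le`): `R` a commutative ring, finite over
`ℤ`, acting on a finitely generated abelian group `L`; a maximal ideal `𝔫 ∋ p` containing the
annihilator of `L / p L` is an associated prime of `L / p L`.
-/

set_option autoImplicit false
set_option linter.style.haveILetI false

namespace Fermat.Agent.S41.Final

theorem exists_mod_p_eigenvector_of_annihilator_le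
    {R : Type*} [CommRing R] [Module.Finite ℤ R]
    {L : Type*} [AddCommGroup L] [Module R L] [Module.Finite ℤ L]
    (p : ℕ) (hp : p.Prime) (𝔫 : Ideal R) [h𝔫 : 𝔫.IsMaximal]
    (hann : ∀ t : R, (∀ x : L, ∃ y : L, t • x = (p : ℤ) • y) → t ∈ 𝔫) :
    ∃ x : L, (¬ ∃ y : L, x = (p : ℤ) • y) ∧ ∀ t ∈ 𝔫, ∃ y : L, t • x = (p : ℤ) • y := by
  classical
  have hpsmul : ∀ y : L, (p : R) • y = (p : ℤ) • y := by
    intro y
    rw [Nat.cast_smul_eq_nsmul, natCast_zsmul]
  -- the submodule `p L`
  let pL : Submodule R L := LinearMap.range (LinearMap.lsmul R L (p : R))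
  have hmem : ∀ x : L, x ∈ pL ↔ ∃ y : L, x = (p : ℤ) • y := by
    intro x
    constructor
    · rintro ⟨y, hy⟩
      exact ⟨y, by rw [← hy, ← hpsmul]; rfl⟩
    · rintro ⟨y, hy⟩
      exact ⟨y, by rw [hy, ← hpsmul]; rfl⟩
  let M := L ⧸ pL
  haveI : Module.Finite R L := Module.Finite.of_restrictScalars_finite ℤ R L
  haveI : Module.Finite R M := inferInstance
  haveI : IsNoetherian ℤ R := inferInstance
  haveI : IsNoetherianRing R := isNoetherian_of_tower ℤ (inferInstance : IsNoetherian ℤ R)
  haveI : Algebra.IsIntegral ℤ R := Algebra.IsIntegral.of_finite ℤ R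
  have hmk : ∀ x : L, (Submodule.Quotient.mk x : M) = 0 ↔ ∃ y : L, x = (p : ℤ) • y := by
    intro x
    rw [Submodule.Quotient.mk_eq_zero, hmem]
  -- `p` annihilates `M`
  have hpann : (p : R) ∈ Module.annihilator R M := by
    rw [Module.mem_annihilator]
    intro m
    obtain ⟨x, rfl⟩ := Submodule.Quotient.mk_surjective pL m
    rw [← Submodule.Quotient.mk_smul, hmk]
    exact ⟨x, hpsmul x⟩
  have hannle : Module.annihilator R M ≤ 𝔫 := by
    intro t ht
    apply hann
    intro x
    rw [Module.mem_annihilator] at ht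
    have := ht (Submodule.Quotient.mk x)
    rw [← Submodule.Quotient.mk_smul, hmk] at this
    exact this
  -- `𝔫` is a minimal prime over the annihilator
  have hmin : 𝔫 ∈ (Module.annihilator R M).minimalPrimes := by
    refine ⟨⟨h𝔫.isPrime, hannle⟩, ?_⟩
    rintro 𝔭 ⟨h𝔭prime, h𝔭ann⟩ h𝔭le
    haveI := h𝔭prime
    have hcomap_prime : (𝔭.comap (algebraMap ℤ R)).IsPrime := Ideal.comap_isPrime _ _
    have hcomap_ne : 𝔭.comap (algebraMap ℤ R) ≠ ⊥ := by
      intro hbot
      have : (p : ℤ) ∈ 𝔭.comap (algebraMap ℤ R) := by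
        rw [Ideal.mem_comap]
        have := h𝔭ann hpann
        simpa using this
      rw [hbot, Ideal.mem_bot] at this
      exact hp.ne_zero (by exact_mod_cast this)
    have hcomap_max : (𝔭.comap (algebraMap ℤ R)).IsMaximal :=
      hcomap_prime.isMaximal hcomap_ne
    have h𝔭max : 𝔭.IsMaximal := Ideal.isMaximal_of_isIntegral_of_isMaximal_comap 𝔭 hcomap_max
    exact (h𝔭max.eq_of_le h𝔫.ne_top h𝔭le).ge
  have hass : 𝔫 ∈ associatedPrimes R M :=
    Module.associatedPrimes.minimalPrimes_annihilator_subset_associatedPrimes R M hmin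
  rw [AssociatedPrimes.mem_iff, isAssociatedPrime_iff] at hass
  obtain ⟨-, m, hm⟩ := hass
  obtain ⟨x, rfl⟩ := Submodule.Quotient.mk_surjective pL m
  have hx0 : (Submodule.Quotient.mk x : M) ≠ 0 := by
    intro h0
    have : (1 : R) ∈ 𝔫 := by
      rw [hm, Submodule.mem_colon_singleton, h0]
      simp
    exact h𝔫.ne_top ((Ideal.eq_top_iff_one _).2 this)
  refine ⟨x, fun h => hx0 ((hmk x).2 h), fun t ht => ?_⟩
  rw [hm, Submodule.mem_colon_singleton] at ht
  have h1 : (Submodule.Quotient.mk (t • x) : M) = 0 := by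
    rw [Submodule.Quotient.mk_smul]
    simpa using ht
  exact (hmk _).1 h1

end Fermat.Agent.S41.Final
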