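import Mathlib
import Fermat.Agent.S49.DSLift
import Fermat.Agent.S41.Final.Reduction

/-!
# P-S41 (B7): reduction lemma, concrete form

A simultaneous eigenvector in a complex vector space `V` of commuting operators preserving a
finitely generated spanning lattice `L`, whose eigenvalues are congruent to integers `a i` modulo
a maximal ideal `𝔪 ∋ p` of `ℤ̄`, gives a vector of `L \ p L` which is an eigenvector modulo `p L`
with eigenvalues `a i`.
-/

set_option autoImplicit false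
set_option linter.style.haveILetI false

namespace Fermat.Agent.S41.Final

open Fermat.Agent.S49.DSLift

variable {V : Type*} [AddCommGroup V] [Module ℂ V]

/-- The eigenvalue of an endomorphism preserving a finitely generated spanning lattice is an
algebraic integer. -/
theorem isIntegral_eigenvalue_of_preserves_lattice
    (L : Submodule ℤ V) (hLfg : L.FG) (hLspan : Submodule.span ℂ (L : Set V) = ⊤)
    (s : Module.End ℂ V) (hsL : ∀ x ∈ L, s x ∈ L) (f : V) (hf : f ≠ 0) (μ : ℂ)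
    (hsf : s f = μ • f) : IsIntegral ℤ μ := by
  let R₂ : Subalgebra ℤ (Module.End ℂ V) := Algebra.adjoin ℤ ({s} : Set (Module.End ℂ V))
  letI : CommRing R₂ := Algebra.adjoinCommRingOfComm ℤ (by
    rintro _ h1 _ h2
    rw [Set.mem_singleton_iff] at h1 h2
    rw [h1, h2])
  let ρ₂ : R₂ →+* Module.End ℂ V := R₂.val.toRingHom
  have hρ₂ : Function.Injective ρ₂ := Subtype.val_injective
  have hRL : ∀ t : R₂, ∀ x ∈ L, ρ₂ t x ∈ L := by
    rintro ⟨t, ht⟩
    induction ht using Algebra.adjoin_induction with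
    | mem t ht =>
      rw [Set.mem_singleton_iff] at ht
      subst ht
      exact hsL
    | algebraMap n =>
      intro x hx
      show (algebraMap ℤ (Module.End ℂ V) n) x ∈ L
      rw [Module.algebraMap_end_apply]
      exact L.smul_mem n hx
    | add t u _ _ iht ihu =>
      intro x hx
      exact L.add_mem (iht x hx) (ihu x hx)
    | mul t u _ _ iht ihu =>
      intro x hx
      exact iht _ (ihu x hx)
  have hfin : Module.Finite ℤ R₂ := finite_int_of_preserves_lattice L hLfg hLspan ρ₂ hρ₂ hRL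
  have hint : Algebra.IsIntegral ℤ R₂ := Algebra.IsIntegral.of_finite ℤ R₂
  have hs_int : IsIntegral ℤ s := by
    have h1 : IsIntegral ℤ (⟨s, Algebra.subset_adjoin (Set.mem_singleton s)⟩ : R₂) :=
      Algebra.IsIntegral.isIntegral _
    exact h1.map R₂.val
  obtain ⟨P, hPmonic, hP⟩ := hs_int
  refine ⟨P, hPmonic, ?_⟩
  have hev : Module.End.HasEigenvector s μ f :=
    ⟨Module.End.mem_eigenspace_iff.mpr hsf, hf⟩
  have h2 := Module.End.aeval_apply_of_hasEigenvector (p := P.map (algebraMap ℤ ℂ)) hev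
  rw [Polynomial.aeval_map_algebraMap, Polynomial.aeval_def, hP, LinearMap.zero_apply,
    Polynomial.eval_map] at h2
  exact (smul_eq_zero.mp h2.symm).resolve_right hf

theorem exists_mod_p_eigenvector
    (L : Submodule ℤ V) (hLfg : L.FG) (hLspan : Submodule.span ℂ (L : Set V) = ⊤)
    {ι : Type*} (T : ι → Module.End ℂ V) (hcomm : ∀ i j, Commute (T i) (T j))
    (hTL : ∀ i, ∀ x ∈ L, T i x ∈ L)
    (p : ℕ) (hp : p.Prime)
    (f : V) (hf : f ≠ 0) (c : ι → ℂ) (hfc : ∀ i, T i f = c i • f)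
    (𝔪 : Ideal (integralClosure ℤ ℂ)) (h𝔪 : 𝔪.IsMaximal)
    (hp𝔪 : ((p : ℕ) : integralClosure ℤ ℂ) ∈ 𝔪)
    (a : ι → ℤ)
    (hca : ∀ i, ∃ c' : integralClosure ℤ ℂ, (c' : ℂ) = c i ∧
      c' - (a i : integralClosure ℤ ℂ) ∈ 𝔪) :
    ∃ x ∈ L, (¬ ∃ y ∈ L, x = (p : ℤ) • y) ∧ ∀ i, ∃ y ∈ L, T i x - a i • x = (p : ℤ) • y := by
  classical
  let A : Subalgebra ℂ (Module.End ℂ V) := Algebra.adjoin ℂ (Set.range T)
  letI : CommRing A := Algebra.adjoinCommRingOfComm ℂ (by
    rintro _ ⟨i, rfl⟩ _ ⟨j, rfl⟩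
    exact hcomm i j)
  let Ti : ι → A := fun i => ⟨T i, Algebra.subset_adjoin ⟨i, rfl⟩⟩
  let R : Subalgebra ℤ A := Algebra.adjoin ℤ (Set.range Ti)
  let φ : A →ₐ[ℂ] Module.End ℂ V := A.val
  have hφ : Function.Injective φ := Subtype.val_injective
  let j : R →+* A := R.val.toRingHom
  have hj : Function.Injective j := Subtype.val_injective
  let ρ : R →+* Module.End ℂ V := (φ : A →+* Module.End ℂ V).comp j
  have hρ : Function.Injective ρ := hφ.comp hj
  have hTiR : ∀ i, Ti i ∈ R := fun i => Algebra.subset_adjoin ⟨i, rfl⟩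
  have hρTi : ∀ i, ρ ⟨Ti i, hTiR i⟩ = T i := fun i => rfl
  have hρint : ∀ n : ℤ, ρ (n : R) = (n : Module.End ℂ V) := fun n => map_intCast ρ n
  -- every element of R preserves L and acts on f by a scalar
  have hRL : ∀ t : R, ∀ x ∈ L, ρ t x ∈ L := by
    rintro ⟨s, hs⟩
    induction hs using Algebra.adjoin_induction with
    | mem s hs =>
      obtain ⟨i, rfl⟩ := hs
      exact hTL i
    | algebraMap n =>
      intro x hx
      have : ρ ⟨algebraMap ℤ A n, Subalgebra.algebraMap_mem _ n⟩ = (n : Module.End ℂ V) := by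
        have h1 : (⟨algebraMap ℤ A n, Subalgebra.algebraMap_mem _ n⟩ : R) = ((n : ℤ) : R) := by
          apply Subtype.ext; simp
        rw [h1, map_intCast]
      rw [this]
      simpa using L.smul_mem n hx
    | add s u hs hu ihs ihu =>
      intro x hx
      have : ρ ⟨s + u, R.add_mem hs hu⟩ = ρ ⟨s, hs⟩ + ρ ⟨u, hu⟩ := by
        rw [← map_add]; rfl
      rw [this, LinearMap.add_apply]
      exact L.add_mem (ihs x hx) (ihu x hx)
    | mul s u hs hu ihs ihu =>
      intro x hx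
      have : ρ ⟨s * u, R.mul_mem hs hu⟩ = ρ ⟨s, hs⟩ * ρ ⟨u, hu⟩ := by
        rw [← map_mul]; rfl
      rw [this, Module.End.mul_apply]
      exact ihs _ (ihu x hx)
  have hex : ∀ t : R, ∃ μ : ℂ, ρ t f = μ • f := by
    rintro ⟨s, hs⟩
    induction hs using Algebra.adjoin_induction with
    | mem s hs =>
      obtain ⟨i, rfl⟩ := hs
      exact ⟨c i, hfc i⟩
    | algebraMap n =>
      refine ⟨(n : ℂ), ?_⟩
      have : ρ ⟨algebraMap ℤ A n, Subalgebra.algebraMap_mem _ n⟩ = (n : Module.End ℂ V) := by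
        have h1 : (⟨algebraMap ℤ A n, Subalgebra.algebraMap_mem _ n⟩ : R) = ((n : ℤ) : R) := by
          apply Subtype.ext; simp
        rw [h1, map_intCast]
      rw [this, Module.End.intCast_apply]
      exact (Int.cast_smul_eq_zsmul ℂ n f).symm
    | add s u hs hu ihs ihu =>
      obtain ⟨μ1, e1⟩ := ihs
      obtain ⟨μ2, e2⟩ := ihu
      refine ⟨μ1 + μ2, ?_⟩
      have : ρ ⟨s + u, R.add_mem hs hu⟩ = ρ ⟨s, hs⟩ + ρ ⟨u, hu⟩ := by
        rw [← map_add]; rfl
      rw [this, LinearMap.add_apply, e1, e2, add_smul]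
    | mul s u hs hu ihs ihu =>
      obtain ⟨μ1, e1⟩ := ihs
      obtain ⟨μ2, e2⟩ := ihu
      refine ⟨μ1 * μ2, ?_⟩
      have : ρ ⟨s * u, R.mul_mem hs hu⟩ = ρ ⟨s, hs⟩ * ρ ⟨u, hu⟩ := by
        rw [← map_mul]; rfl
      rw [this, Module.End.mul_apply, e2, map_smul, e1, smul_smul, mul_comm]
  choose θ₀ hθ₀ using hex
  have hinj : Function.Injective (fun μ : ℂ => μ • f) := smul_left_injective ℂ hf
  have hθuniq : ∀ (t : R) (μ : ℂ), ρ t f = μ • f → θ₀ t = μ := fun t μ h =>
    hinj (by show θ₀ t • f = μ • f; rw [← hθ₀ t, h])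
  let θ : R →+* ℂ :=
    { toFun := θ₀
      map_one' := hθuniq 1 1 (by rw [map_one, Module.End.one_apply, one_smul])
      map_mul' := fun s t => hθuniq (s * t) (θ₀ s * θ₀ t) (by
        rw [map_mul, Module.End.mul_apply, hθ₀ t, map_smul, hθ₀ s, smul_smul, mul_comm])
      map_zero' := hθuniq 0 0 (by rw [map_zero, LinearMap.zero_apply, zero_smul])
      map_add' := fun s t => hθuniq (s + t) (θ₀ s + θ₀ t) (by
        rw [map_add, LinearMap.add_apply, hθ₀ s, hθ₀ t, add_smul]) }
  have hθ : ∀ t : R, ρ t f = θ t • f := hθ₀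
  have hfinR : Module.Finite ℤ R := finite_int_of_preserves_lattice L hLfg hLspan ρ hρ hRL
  have hintR : Algebra.IsIntegral ℤ R := Algebra.IsIntegral.of_finite ℤ R
  have hθint : ∀ t : R, θ t ∈ integralClosure ℤ ℂ := fun t =>
    map_isIntegral_int θ (Algebra.IsIntegral.isIntegral t)
  let θ' : R →+* integralClosure ℤ ℂ := θ.codRestrict (integralClosure ℤ ℂ) hθint
  have hθ'coe : ∀ t : R, ((θ' t : integralClosure ℤ ℂ) : ℂ) = θ t := fun _ => rfl
  letI : Algebra R (integralClosure ℤ ℂ) := θ'.toAlgebra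
  have hintZ : Algebra.IsIntegral R (integralClosure ℤ ℂ) :=
    Algebra.IsIntegral.tower_top (R := ℤ)
  let 𝔫 : Ideal R := 𝔪.comap (algebraMap R (integralClosure ℤ ℂ))
  haveI h𝔫 : 𝔫.IsMaximal := Ideal.isMaximal_comap_of_isIntegral_of_isMaximal (R := R) 𝔪
  have hmem𝔫 : ∀ t : R, t ∈ 𝔫 ↔ θ' t ∈ 𝔪 := fun t => Iff.rfl
  -- the R-module structure on L
  letI : Module R L :=
    { smul := fun t x => ⟨ρ t x, hRL t x x.2⟩
      one_smul := fun x => Subtype.ext (by
        show ρ 1 (x : V) = x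
        rw [map_one, Module.End.one_apply])
      mul_smul := fun s t x => Subtype.ext (by
        show ρ (s * t) (x : V) = ρ s (ρ t x)
        rw [map_mul, Module.End.mul_apply])
      smul_zero := fun t => Subtype.ext (by
        show ρ t ((0 : L) : V) = ((0 : L) : V)
        simp)
      smul_add := fun t x y => Subtype.ext (by
        show ρ t ((x + y : L) : V) = ρ t x + ρ t y
        simp)
      add_smul := fun s t x => Subtype.ext (by
        show ρ (s + t) (x : V) = ρ s x + ρ t x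
        rw [map_add, LinearMap.add_apply])
      zero_smul := fun x => Subtype.ext (by
        show ρ 0 (x : V) = ((0 : L) : V)
        rw [map_zero, LinearMap.zero_apply]
        rfl) }
  have hsmul : ∀ (t : R) (x : L), ((t • x : L) : V) = ρ t x := fun _ _ => rfl
  haveI : Module.Finite ℤ L := Module.Finite.iff_fg.2 hLfg
  -- the annihilator condition
  have hann : ∀ t : R, (∀ x : L, ∃ y : L, t • x = (p : ℤ) • y) → t ∈ 𝔫 := by
    intro t ht
    rw [hmem𝔫]
    have hp0 : (p : ℂ) ≠ 0 := by exact_mod_cast hp.ne_zero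
    let s : Module.End ℂ V := (p : ℂ)⁻¹ • ρ t
    have hsL : ∀ x ∈ L, s x ∈ L := by
      intro x hx
      obtain ⟨y, hy⟩ := ht ⟨x, hx⟩
      have hy' : ρ t x = (p : ℤ) • (y : V) := by
        have := congrArg (fun z : L => (z : V)) hy
        simpa [hsmul] using this
      have : s x = y := by
        show (p : ℂ)⁻¹ • ρ t x = y
        rw [hy', ← Int.cast_smul_eq_zsmul ℂ, smul_smul]
        simp [hp0]
      rw [this]
      exact y.2
    have hsf : s f = ((p : ℂ)⁻¹ * θ t) • f := by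
      show (p : ℂ)⁻¹ • ρ t f = _
      rw [hθ, smul_smul]
    have hμ : IsIntegral ℤ ((p : ℂ)⁻¹ * θ t) :=
      isIntegral_eigenvalue_of_preserves_lattice L hLfg hLspan s hsL f hf _ hsf
    let μ' : integralClosure ℤ ℂ := ⟨(p : ℂ)⁻¹ * θ t, hμ⟩
    have : θ' t = ((p : ℕ) : integralClosure ℤ ℂ) * μ' := by
      apply Subtype.ext
      rw [hθ'coe]
      show θ t = ((p : ℕ) : ℂ) * ((p : ℂ)⁻¹ * θ t)
      rw [← mul_assoc, mul_inv_cancel₀ hp0, one_mul]
    rw [this]
    exact 𝔪.mul_mem_right _ hp𝔪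
  obtain ⟨x, hx1, hx2⟩ := exists_mod_p_eigenvector_of_annihilator_le (R := R) (L := L) p hp 𝔫 hann
  refine ⟨x, x.2, ?_, ?_⟩
  · rintro ⟨y, hy, hxy⟩
    apply hx1
    refine ⟨⟨y, hy⟩, Subtype.ext ?_⟩
    rw [hxy]
    rfl
  · intro i
    have hti : (⟨Ti i, hTiR i⟩ : R) - ((a i : ℤ) : R) ∈ 𝔫 := by
      rw [hmem𝔫, map_sub, map_intCast]
      obtain ⟨c', hc'1, hc'2⟩ := hca i
      have : θ' ⟨Ti i, hTiR i⟩ = c' := by
        apply Subtype.ext
        rw [hθ'coe, hc'1]
        exact hθuniq _ _ (by rw [hρTi]; exact hfc i)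
      rw [this]
      exact hc'2
    obtain ⟨y, hy⟩ := hx2 _ hti
    refine ⟨y, y.2, ?_⟩
    have := congrArg (fun z : L => (z : V)) hy
    simp only [hsmul, map_sub, hρTi, hρint, LinearMap.sub_apply] at this
    rw [Module.End.intCast_apply] at this
    exact this

end Fermat.Agent.S41.Final
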