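import Mathlib

/-!
# P-S41 (B7): the final element chase of Ribet's level raising argument

Abstract form.  `X`, `V` are abelian groups (the lattices `H¹_par(Γ₀(N q), ℤ)`, `H¹_par(Γ₀(N), ℤ)`),
`α : V × V → X`, `β : X → V × V` the degeneracy maps, `TX i`, `TV i` the anemic Hecke operators,
`Tq` the operator `T_q` on `V`.  Everything "mod `p`" is phrased as divisibility by `p`.
-/

set_option autoImplicit false

namespace Fermat.Agent.S41.Final

section Saturation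

variable {U : Type*} [AddCommGroup U] [Module.Finite ℤ U]

/-- In a finitely generated abelian group, the `p`-saturation of a subgroup `B` is reached by a
single power of `p`. -/
theorem exists_pow_smul_mem_of_saturation (B : AddSubgroup U) (p : ℕ) :
    ∃ m : ℕ, ∀ u : U, (∃ k : ℕ, ((p : ℤ) ^ k) • u ∈ B) → ((p : ℤ) ^ m) • u ∈ B := by
  classical
  let D : Submodule ℤ U :=
    { carrier := {u | ∃ k : ℕ, ((p : ℤ) ^ k) • u ∈ B}
      zero_mem' := ⟨0, by simp [B.zero_mem]⟩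
      add_mem' := by
        rintro u u' ⟨k, hk⟩ ⟨k', hk'⟩
        refine ⟨k + k', ?_⟩
        rw [smul_add]
        refine B.add_mem ?_ ?_
        · rw [pow_add, mul_comm, mul_smul]
          exact B.zsmul_mem hk _
        · rw [pow_add, mul_smul]
          exact B.zsmul_mem hk' _
      smul_mem' := by
        rintro c u ⟨k, hk⟩
        refine ⟨k, ?_⟩
        rw [smul_comm]
        exact B.zsmul_mem hk _ }
  have hDfg : D.FG := IsNoetherian.noetherian D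
  obtain ⟨S, hS⟩ := hDfg
  have hSD : ∀ s ∈ S, ∃ k : ℕ, ((p : ℤ) ^ k) • s ∈ B := by
    intro s hs
    have : s ∈ D := by rw [← hS]; exact Submodule.subset_span hs
    exact this
  choose! k hk using hSD
  refine ⟨S.sup k, ?_⟩
  have key : ∀ u ∈ Submodule.span ℤ (S : Set U), ((p : ℤ) ^ S.sup k) • u ∈ B := by
    intro u hu
    induction hu using Submodule.span_induction with
    | mem s hs =>
      have hle : k s ≤ S.sup k := Finset.le_sup hs
      obtain ⟨d, hd⟩ := Nat.exists_eq_add_of_le hle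
      rw [hd, pow_add, mul_comm, mul_smul]
      exact B.zsmul_mem (hk s hs) _
    | zero => simp [B.zero_mem]
    | add x y _ _ hx hy =>
      rw [smul_add]
      exact B.add_mem hx hy
    | smul c x _ hx =>
      rw [smul_comm]
      exact B.zsmul_mem hx _
  intro u hu
  exact key u (by rw [hS]; exact hu)

end Saturation

section Chase

variable {X V : Type*} [AddCommGroup X] [AddCommGroup V] [Module.Finite ℤ V]

/-- Bezout: if `e • u` and `p • u` lie in a subgroup and `p ∤ e`, then `u` lies in it. -/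
theorem mem_of_smul_mem_of_prime_smul_mem {U : Type*} [AddCommGroup U] (B : AddSubgroup U)
    {p : ℕ} (hp : p.Prime) {e : ℤ} (he : ¬ (p : ℤ) ∣ e) {u : U}
    (h1 : e • u ∈ B) (h2 : (p : ℤ) • u ∈ B) : u ∈ B := by
  have hcop : IsCoprime e (p : ℤ) := by
    rw [isCoprime_comm]
    exact (Nat.prime_iff_prime_int.mp hp).coprime_iff_not_dvd.2 he
  obtain ⟨s, t, hst⟩ := hcop
  have : u = s • (e • u) + t • ((p : ℤ) • u) := by
    rw [smul_smul, smul_smul, ← add_smul, hst, one_smul]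
  rw [this]
  exact B.add_mem (B.zsmul_mem h1 _) (B.zsmul_mem h2 _)

/-- **The final chase.**  See the module docstring. -/
theorem chase
    {ι : Type*} (TX : ι → X →+ X) (TV : ι → V →+ V) (Tq : V →+ V)
    (α : V × V →+ X) (β : X →+ V × V)
    (p : ℕ) (hp : p.Prime) (htf : ∀ w : V, (p : ℤ) • w = 0 → w = 0)
    (qq ε : ℤ) (hε : ε * ε = 1) (a : ι → ℤ)
    (hαT : ∀ i (u : V × V), α (TV i u.1, TV i u.2) = TX i (α u))
    (hβT : ∀ i (x : X), β (TX i x) = (TV i (β x).1, TV i (β x).2))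
    (hβα : ∀ u : V × V, β (α u) = (qq • u.1 + Tq u.2, Tq u.1 + qq • u.2))
    (v : V) (hv : ¬ ∃ w, v = (p : ℤ) • w)
    (hvT : ∀ i, ∃ w, TV i v - a i • v = (p : ℤ) • w)
    (hvq : ∃ w, Tq v - (ε * qq) • v = (p : ℤ) • w)
    (i₀ : ι) (c₀ : ℤ) (he : ¬ (p : ℤ) ∣ a i₀ - c₀)
    (hIhara : ∀ u : V × V, (∃ x, α u = (p : ℤ) • x) → ∃ w, TV i₀ u.1 - c₀ • u.1 = (p : ℤ) • w)
    (hDual : ∀ u : V × V, ∃ (x : X) (w : V × V),
      (TV i₀ u.1 - c₀ • u.1, TV i₀ u.2 - c₀ • u.2) = β x + (p : ℤ) • w) :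
    ∃ y : X, β y = 0 ∧ (¬ ∃ x, y = (p : ℤ) • x) ∧
      ∀ i, ∃ x, β x = 0 ∧ TX i y - a i • y = (p : ℤ) • x := by
  classical
  have htfU : ∀ u : V × V, (p : ℤ) • u = 0 → u = 0 := by
    intro u hu
    have h1 : (p : ℤ) • u.1 = 0 := congrArg Prod.fst hu
    have h2 : (p : ℤ) • u.2 = 0 := congrArg Prod.snd hu
    exact Prod.ext (htf _ h1) (htf _ h2)
  -- the operator `η = T_{i₀} - c₀` on `V × V`
  let η : V × V →+ V × V :=
    { toFun := fun u => (TV i₀ u.1 - c₀ • u.1, TV i₀ u.2 - c₀ • u.2)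
      map_zero' := by simp
      map_add' := by
        intro u u'
        ext <;> simp [smul_add] <;> abel }
  have hη : ∀ u, η u = (TV i₀ u.1 - c₀ • u.1, TV i₀ u.2 - c₀ • u.2) := fun _ => rfl
  let B : AddSubgroup (V × V) := β.range
  have hηB : ∀ b ∈ B, η b ∈ B := by
    rintro _ ⟨x, rfl⟩
    refine ⟨TX i₀ x - c₀ • x, ?_⟩
    rw [map_sub, map_zsmul, hβT, hη]
    rfl
  -- Step 1: the vector `u = (v, -ε v)` and `y₀ = α u`
  obtain ⟨w, hw⟩ := hvq
  have hTqv : Tq v = (ε * qq) • v + (p : ℤ) • w := by rw [← hw]; abel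
  set u : V × V := (v, (-ε) • v) with hu
  set u' : V × V := ((-ε) • w, w) with hu'
  set y₀ : X := α u with hy₀
  have hβy₀ : β y₀ = (p : ℤ) • u' := by
    rw [hy₀, hβα, hu, hu']
    ext
    · show qq • v + Tq ((-ε) • v) = (p : ℤ) • ((-ε) • w)
      rw [map_zsmul, hTqv, smul_add, smul_smul, smul_smul, smul_smul]
      have : -ε * (ε * qq) = -qq := by
        calc -ε * (ε * qq) = -(ε * ε) * qq := by ring
          _ = -qq := by rw [hε]; ring
      rw [this, neg_smul, mul_comm (-ε) (p : ℤ)]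
      abel
    · show Tq v + qq • ((-ε) • v) = (p : ℤ) • w
      rw [hTqv, smul_smul]
      have : qq * -ε = -(ε * qq) := by ring
      rw [this, neg_smul]
      abel
  -- eigen-property of `u`
  have huT : ∀ i, ∃ wi : V × V, (TV i u.1 - a i • u.1, TV i u.2 - a i • u.2) = (p : ℤ) • wi := by
    intro i
    obtain ⟨wi, hwi⟩ := hvT i
    refine ⟨(wi, (-ε) • wi), ?_⟩
    ext
    · exact hwi
    · show TV i ((-ε) • v) - a i • ((-ε) • v) = (p : ℤ) • ((-ε) • wi)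
      rw [map_zsmul, smul_comm (a i) (-ε) v, ← smul_sub, hwi, smul_comm]
  have hy₀T : ∀ i, ∃ xi : X, TX i y₀ - a i • y₀ = (p : ℤ) • xi := by
    intro i
    obtain ⟨wi, hwi⟩ := huT i
    refine ⟨α wi, ?_⟩
    rw [hy₀, ← hαT, ← map_zsmul, ← map_sub, ← map_zsmul, ← hwi]
    rfl
  -- Claim A: `y₀` is not divisible by `p`
  have hy₀p : ¬ ∃ x, y₀ = (p : ℤ) • x := by
    intro hdiv
    obtain ⟨w1, hw1⟩ := hIhara u hdiv
    obtain ⟨w2, hw2⟩ := hvT i₀
    apply hv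
    have h3 : (a i₀ - c₀) • v = (p : ℤ) • (w1 - w2) := by
      have : u.1 = v := rfl
      rw [this] at hw1
      rw [smul_sub, ← hw1, ← hw2, sub_smul]
      abel
    have hmem : v ∈ (AddMonoidHom.range (zsmulAddGroupHom (p : ℤ) : V →+ V)) := by
      refine mem_of_smul_mem_of_prime_smul_mem _ hp he ?_ ?_
      · rw [h3]; exact ⟨w1 - w2, rfl⟩
      · exact ⟨v, rfl⟩
    obtain ⟨w', hw'⟩ := hmem
    exact ⟨w', hw'.symm⟩
  -- Claim B: `u' ∈ B`
  have hpu' : (p : ℤ) • u' ∈ B := ⟨y₀, hβy₀⟩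
  obtain ⟨x₀, hx₀⟩ := hy₀T i₀
  have hηsub : ∀ u'' : V × V, η u'' - (a i₀ - c₀) • u''
      = (TV i₀ u''.1 - a i₀ • u''.1, TV i₀ u''.2 - a i₀ • u''.2) := by
    intro u''
    rw [hη]
    ext
    · show TV i₀ u''.1 - c₀ • u''.1 - (a i₀ - c₀) • u''.1 = TV i₀ u''.1 - a i₀ • u''.1
      rw [sub_smul]; abel
    · show TV i₀ u''.2 - c₀ • u''.2 - (a i₀ - c₀) • u''.2 = TV i₀ u''.2 - a i₀ • u''.2
      rw [sub_smul]; abel
  have hηu' : η u' - (a i₀ - c₀) • u' ∈ B := by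
    refine ⟨x₀, ?_⟩
    apply sub_eq_zero.mp
    apply htfU
    rw [smul_sub, ← map_zsmul β, ← hx₀, map_sub, map_zsmul, hβT, hβy₀, hηsub]
    ext
    · show TV i₀ ((p : ℤ) • u'.1) - a i₀ • ((p : ℤ) • u'.1)
        - (p : ℤ) • (TV i₀ u'.1 - a i₀ • u'.1) = 0
      rw [map_zsmul, smul_sub, smul_comm (a i₀) (p : ℤ)]
      abel
    · show TV i₀ ((p : ℤ) • u'.2) - a i₀ • ((p : ℤ) • u'.2)
        - (p : ℤ) • (TV i₀ u'.2 - a i₀ • u'.2) = 0
      rw [map_zsmul, smul_sub, smul_comm (a i₀) (p : ℤ)]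
      abel
  -- the `p`-saturation `D` of `B`
  obtain ⟨m, hm⟩ := exists_pow_smul_mem_of_saturation B p
  have hηD : ∀ j : ℕ, ∀ u₁ : V × V, (∃ k : ℕ, ((p : ℤ) ^ k) • u₁ ∈ B) →
      ∃ w₁ : V × V, (∃ k : ℕ, ((p : ℤ) ^ k) • w₁ ∈ B) ∧
        (η^[j]) u₁ - ((p : ℤ) ^ j) • w₁ ∈ B := by
    intro j
    induction j with
    | zero =>
      intro u₁ hu₁
      exact ⟨u₁, hu₁, by simp [B.zero_mem]⟩
    | succ j ih =>
      intro u₁ hu₁
      obtain ⟨w₁, ⟨k, hk⟩, hw₁⟩ := ih u₁ hu₁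
      obtain ⟨x, w₂, hxw⟩ := hDual w₁
      refine ⟨w₂, ⟨k + 1, ?_⟩, ?_⟩
      · -- `p^(k+1) w₂ = p^k (η w₁ - β x)`
        have h1 : ((p : ℤ) ^ (k + 1)) • w₂ = η (((p : ℤ) ^ k) • w₁) - ((p : ℤ) ^ k) • β x := by
          rw [map_zsmul, hη, hxw, smul_add, add_sub_cancel_left, pow_succ, mul_smul]
        rw [h1]
        exact B.sub_mem (hηB _ hk) (B.zsmul_mem ⟨x, rfl⟩ _)
      · rw [Function.iterate_succ_apply']
        have h2 : η ((η^[j]) u₁) - ((p : ℤ) ^ (j + 1)) • w₂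
            = η ((η^[j]) u₁ - ((p : ℤ) ^ j) • w₁) + ((p : ℤ) ^ j) • β x := by
          rw [map_sub, map_zsmul, hη w₁, hxw, smul_add, pow_succ, mul_smul]
          abel
        rw [h2]
        exact B.add_mem (hηB _ hw₁) (B.zsmul_mem ⟨x, rfl⟩ _)
  have hηpow : ∀ j : ℕ, (η^[j]) u' - ((a i₀ - c₀) ^ j) • u' ∈ B := by
    intro j
    induction j with
    | zero => simp [B.zero_mem]
    | succ j ih =>
      rw [Function.iterate_succ_apply']
      have h3 : η ((η^[j]) u') - ((a i₀ - c₀) ^ (j + 1)) • u'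
          = η ((η^[j]) u' - ((a i₀ - c₀) ^ j) • u')
            + ((a i₀ - c₀) ^ j) • (η u' - (a i₀ - c₀) • u') := by
        rw [map_sub, map_zsmul, smul_sub, pow_succ, mul_smul]
        abel
      rw [h3]
      exact B.add_mem (hηB _ ih) (B.zsmul_mem hηu' _)
  have hu'B : u' ∈ B := by
    have hu'D : ∃ k : ℕ, ((p : ℤ) ^ k) • u' ∈ B := ⟨1, by rw [pow_one]; exact hpu'⟩
    obtain ⟨w₁, hw₁D, hw₁⟩ := hηD m u' hu'D
    have h4 : ((a i₀ - c₀) ^ m) • u' ∈ B := by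
      have h5 : ((a i₀ - c₀) ^ m) • u'
          = ((η^[m]) u' - ((p : ℤ) ^ m) • w₁) + ((p : ℤ) ^ m) • w₁
            - ((η^[m]) u' - ((a i₀ - c₀) ^ m) • u') := by abel
      rw [h5]
      exact B.sub_mem (B.add_mem hw₁ (hm w₁ hw₁D)) (hηpow m)
    have he' : ¬ (p : ℤ) ∣ (a i₀ - c₀) ^ m := fun hd =>
      he ((Nat.prime_iff_prime_int.mp hp).dvd_of_dvd_pow hd)
    exact mem_of_smul_mem_of_prime_smul_mem B hp he' h4 hpu'
  -- Step 5: correct `y₀` by an element of `p X`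
  obtain ⟨x₁, hx₁⟩ := hu'B
  refine ⟨y₀ - (p : ℤ) • x₁, ?_, ?_, ?_⟩
  · rw [map_sub, map_zsmul, hβy₀, hx₁, sub_self]
  · rintro ⟨x, hx⟩
    apply hy₀p
    refine ⟨x + x₁, ?_⟩
    rw [smul_add, ← hx]
    abel
  · intro i
    obtain ⟨xi, hxi⟩ := hy₀T i
    have hβy : β (y₀ - (p : ℤ) • x₁) = 0 := by
      rw [map_sub, map_zsmul, hβy₀, hx₁, sub_self]
    have h6 : (p : ℤ) • (xi - (TX i x₁ - a i • x₁))
        = TX i (y₀ - (p : ℤ) • x₁) - a i • (y₀ - (p : ℤ) • x₁) := by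
      rw [smul_sub (p : ℤ) xi, ← hxi, map_sub, map_zsmul, smul_sub (p : ℤ), smul_sub (a i),
        smul_comm (a i) (p : ℤ)]
      abel
    refine ⟨xi - (TX i x₁ - a i • x₁), ?_, h6.symm⟩
    apply htfU
    rw [← map_zsmul β, h6, map_sub, map_zsmul, hβT, hβy]
    simp

end Chase

end Fermat.Agent.S41.Final
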