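import Mathlib

/-!
# P-S41 (B7): the dual form of Ihara's lemma

If `α : U → X` and `β : X → U` are adjoint for nondegenerate forms on finite dimensional spaces and
a self-adjoint operator `η` on `U` kills `ker α`, then `η` maps `U` into `range β`.
-/

set_option autoImplicit false

namespace Fermat.Agent.S41.Final

open LinearMap

theorem eta_mem_range_of_kills_ker {k : Type*} [Field k] {U X : Type*}
    [AddCommGroup U] [Module k U] [FiniteDimensional k U] [AddCommGroup X] [Module k X]
    (wU : LinearMap.BilinForm k U) (wX : LinearMap.BilinForm k X)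
    (hUl : ∀ u, (∀ u', wU u u' = 0) → u = 0) (hUr : ∀ u u', wU u u' = 0 → wU u' u = 0)
    (hX : ∀ x, (∀ x', wX x x' = 0) → x = 0)
    (α : U →ₗ[k] X) (β : X →ₗ[k] U) (hadj : ∀ u x, wX (α u) x = wU u (β x))
    (η : U →ₗ[k] U) (hη : ∀ u u', wU (η u) u' = wU u (η u'))
    (hker : ∀ u, α u = 0 → η u = 0) (u : U) : η u ∈ LinearMap.range β := by
  have hrefl : wU.IsRefl := fun x y h => hUr x y h
  have hnd : wU.Nondegenerate :=
    ⟨fun x hx => hUl x hx, fun y hy => hUl y (fun x => hUr x y (hy x))⟩
  rw [← LinearMap.BilinForm.orthogonal_orthogonal hnd hrefl (LinearMap.range β)]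
  rw [LinearMap.BilinForm.mem_orthogonal_iff]
  intro n hn
  rw [LinearMap.BilinForm.mem_orthogonal_iff] at hn
  show wU n (η u) = 0
  have hαn : α n = 0 := by
    apply hX
    intro x
    rw [hadj]
    exact hUr _ _ (hn (β x) ⟨x, rfl⟩)
  rw [← hη, hker n hαn]
  simp

end Fermat.Agent.S41.Final
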